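/-
GATE-J27 / S27, node GJ27-EIS = B1 of helper27's DESIGN v1 (helper62), part 1: the FUNCTIONS.

`K` algebraically closed of characteristic `0`, `F/K` a function field in one variable
(`[IsGen K x₀]`).  We produce

* a place `P0`, a function `t` whose only zero is `P0`, of order `n = [F : K(t)] > 0`;
* a function `y` with `ord_{P0} y = 1`, integral over `K[t]` (poles only over `t = ∞`).

Inputs: Riemann's theorem in the form `RR.CharZero.riemann`, the fundamental identity
`FF1.sum_placesOver`, and `PlaceLattice.regFin_iff_ord`.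
-/
import Mathlib
import Fermat.Agent.S24.FF1
import Fermat.Agent.RR.CharZero
import Fermat.Agent.GJ.J1.PlaceLattice

set_option autoImplicit false
set_option linter.unusedSectionVars false

noncomputable section

open AlgebraicCurve IntermediateField Polynomial

namespace Fermat.Agent.GJ27.Eis

open Fermat.Agent.S24

variable {K F : Type*} [Field K] [Field F] [Algebra K F]

/-! ### valuation bookkeeping at a place -/

section Val

variable (v : Place K F)

theorem adicValuation_eq_exp {f : F} (hf : f ≠ 0) :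
    v.adicValuation f = WithZero.exp (-(v.ord f)) := by
  rw [Place.ord, neg_neg, WithZero.exp_log (v.adicValuation_ne_zero hf)]

theorem ord_lt_iff_adicValuation_lt {f g : F} (hf : f ≠ 0) (hg : g ≠ 0) :
    v.ord f < v.ord g ↔ v.adicValuation g < v.adicValuation f := by
  rw [adicValuation_eq_exp v hf, adicValuation_eq_exp v hg, WithZero.exp_lt_exp]
  omega

theorem ord_eq_iff_adicValuation_eq {f g : F} (hf : f ≠ 0) (hg : g ≠ 0) :
    v.ord f = v.ord g ↔ v.adicValuation f = v.adicValuation g := by
  rw [adicValuation_eq_exp v hf, adicValuation_eq_exp v hg, WithZero.exp_inj]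
  omega

/-- strict ultrametric inequality in `ord` form -/
theorem ord_add_eq_of_lt {f g : F} (hf : f ≠ 0) (hg : g ≠ 0) (h : v.ord f < v.ord g) :
    f + g ≠ 0 ∧ v.ord (f + g) = v.ord f := by
  have hlt : v.adicValuation g < v.adicValuation f :=
    (ord_lt_iff_adicValuation_lt v hf hg).mp h
  have heq : v.adicValuation (f + g) = v.adicValuation f :=
    Valuation.map_add_eq_of_lt_left _ hlt
  have hne : f + g ≠ 0 := by
    intro h0
    rw [h0, map_zero] at heq
    exact v.adicValuation_ne_zero hf heq.symm
  exact ⟨hne, (ord_eq_iff_adicValuation_eq v hne hf).mpr heq⟩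

theorem ne_zero_of_ord_ne_zero {f : F} (h : v.ord f ≠ 0) : f ≠ 0 := by
  rintro rfl
  exact h v.ord_zero

theorem ord_pow (f : F) (k : ℕ) : v.ord (f ^ k) = k * v.ord f := by
  have := v.ord_zpow f (k : ℤ)
  rwa [zpow_natCast] at this

/-- **`ord` of a polynomial in `t` at a zero of `t`**: `ord (p(t)) = mult₀(p) · ord t`. -/
theorem ord_aeval {t : F} (ht : 0 < v.ord t) {p : K[X]} (hp : p ≠ 0) :
    aeval t p ≠ 0 ∧ v.ord (aeval t p) = (p.rootMultiplicity 0 : ℤ) * v.ord t := by
  have ht0 : t ≠ 0 := ne_zero_of_ord_ne_zero v ht.ne'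
  obtain ⟨q, hpq, hq⟩ := Polynomial.exists_eq_pow_rootMultiplicity_mul_and_not_dvd p hp 0
  rw [C_0, sub_zero] at hpq hq
  have hq0 : q.eval 0 ≠ 0 := by
    rw [← Polynomial.coeff_zero_eq_eval_zero]
    exact fun h => hq (Polynomial.X_dvd_iff.mpr h)
  have h1 : v.ord (aeval t q) = 0 :=
    Fermat.Agent.GJ.J1.PlaceLattice.ord_aeval_eq_zero v ht hq0
  have hqne : aeval t q ≠ 0 := by
    intro h0
    -- `q(t) = 0` with `q(0) ≠ 0`: write `q = divX q * X + C q(0)`
    have hdx : aeval t q = aeval t q.divX * t + algebraMap K F (q.coeff 0) := by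
      conv_lhs => rw [← Polynomial.divX_mul_X_add q]
      simp
    have hc : q.coeff 0 ≠ 0 := by rwa [Polynomial.coeff_zero_eq_eval_zero]
    have hcF : algebraMap K F (q.coeff 0) ≠ 0 := by simpa using hc
    have hc0 : v.ord (algebraMap K F (q.coeff 0)) = 0 := PlaceB.ord_algebraMap v hc
    rcases eq_or_ne (aeval t q.divX) 0 with hz | hz
    · rw [hdx, hz, zero_mul, zero_add] at h0
      exact hcF h0
    · have htm : t ∈ v.toValuationSubring := Fermat.Agent.GJ.FF.mem_of_ord_pos v ht
      have hmem : aeval t q.divX ∈ v.toValuationSubring :=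
        Fermat.Agent.GJ.FF.aeval_mem_place v htm _
      have h2 : 0 ≤ v.ord (aeval t q.divX) := (PlaceB.ord_nonneg_iff v hz).mpr hmem
      have h3 : algebraMap K F (q.coeff 0) = -(aeval t q.divX * t) := by
        rw [hdx] at h0
        exact (neg_eq_of_add_eq_zero_right h0).symm
      rw [h3, PlaceB.ord_neg, v.ord_mul hz ht0] at hc0
      omega
  refine ⟨?_, ?_⟩
  · rw [hpq, map_mul, map_pow, aeval_X]
    exact mul_ne_zero (pow_ne_zero _ ht0) hqne
  · rw [hpq, map_mul, map_pow, aeval_X, v.ord_mul (pow_ne_zero _ ht0) hqne, ord_pow, h1,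
      add_zero]
    congr 2
    rw [← hpq]

end Val

/-! ### constants -/

/-- over an algebraically closed constant field, an algebraic element is a constant -/
theorem exists_const_of_isAlgebraic [IsAlgClosed K] {f : F} (hf : IsAlgebraic K f) :
    ∃ c : K, f = algebraMap K F c := by
  have hint : IsIntegral K f := hf.isIntegral
  have hdeg : (minpoly K f).degree = 1 :=
    IsAlgClosed.degree_eq_one_of_irreducible K (minpoly.irreducible hint)
  obtain ⟨c, hc⟩ := minpoly.mem_range_of_degree_eq_one K f hdeg
  exact ⟨c, hc.symm⟩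

/-- a function with a zero is transcendental -/
theorem transcendental_of_ord_pos {v : Place K F} {t : F} (ht : 0 < v.ord t) :
    Transcendental K t := by
  rw [transcendental_iff]
  intro p hp
  by_contra hne
  exact (ord_aeval v ht hne).1 hp

/-! ### jumps of `ℓ` : functions with a prescribed leading order -/

section Jump

variable [IsAlgClosed K] [CharZero K]

/-- **jump lemma**: above Riemann's threshold, `L(D + P) ≠ L(D)`: there is `f` with
`ord_P f = -(D P) - 1` exactly and `ord_v f ≥ -(D v)` elsewhere. -/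
theorem exists_jump (x₀ : F) [IsGen K x₀] :
    ∃ c : ℤ, ∀ (D : Divisor K F) (P : Place K F), c ≤ Divisor.degree D →
      ∃ f : F, f ≠ 0 ∧ P.ord f = -(D P) - 1 ∧ ∀ v : Place K F, v ≠ P → -(D v) ≤ v.ord f := by
  classical
  obtain ⟨g, -, -, c, hc⟩ := Fermat.Agent.RR.CharZero.riemann (K := K) x₀
  refine ⟨max c 0, fun D P hD => ?_⟩
  have hdegP : Divisor.degree (Finsupp.single P (1 : ℤ) : Divisor K F) = 1 := by
    rw [Divisor.degree_single, PlaceB.deg_eq_one P x₀]
    norm_num
  have h1 := hc D (le_trans (le_max_left _ _) hD)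
  have h2 := hc (D + Finsupp.single P 1) (by
    rw [map_add, hdegP]
    have := le_trans (le_max_left c 0) hD
    omega)
  rw [map_add, hdegP] at h2
  -- `L(D+P) ⊄ L(D)`
  have hle : riemannRochSpace D ≤ riemannRochSpace (D + Finsupp.single P 1) :=
    Fermat.Agent.RRh45.riemannRochSpace_mono (by
      intro v
      rw [Finsupp.add_apply]
      have : (0 : ℤ) ≤ (Finsupp.single P (1 : ℤ) : Divisor K F) v := by
        rw [Finsupp.single_apply]
        split_ifs <;> norm_num
      omega)
  have hnot : ¬ riemannRochSpace (D + Finsupp.single P 1) ≤ riemannRochSpace D := by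
    intro h
    have heq : riemannRochSpace (D + Finsupp.single P 1) = riemannRochSpace D :=
      le_antisymm h hle
    rw [heq] at h2
    omega
  obtain ⟨f, hf1, hf2⟩ := SetLike.not_le_iff_exists.mp hnot
  have hf0 : f ≠ 0 := by
    rintro rfl
    exact hf2 (Submodule.zero_mem _)
  rw [mem_riemannRochSpace_iff] at hf1 hf2
  push Not at hf2
  obtain ⟨w, -, hw⟩ := hf2
  have hwP : w = P := by
    by_contra hne
    have h3 := (hf1 w).resolve_left hf0
    rw [Finsupp.add_apply, Finsupp.single_apply, if_neg (Ne.symm hne), add_zero] at h3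
    omega
  subst hwP
  refine ⟨f, hf0, ?_, fun v hv => ?_⟩
  · have h3 := (hf1 w).resolve_left hf0
    rw [Finsupp.add_apply, Finsupp.single_apply, if_pos rfl] at h3
    omega
  · have h3 := (hf1 v).resolve_left hf0
    rw [Finsupp.add_apply, Finsupp.single_apply, if_neg (Ne.symm hv), add_zero] at h3
    exact h3

end Jump

/-! ### the functions `t` and `y` -/

section Functions

variable [IsAlgClosed K] [CharZero K]

/-- a function with a zero is a generator -/
theorem isGen_of_ord_pos (x₀ : F) [IsGen K x₀] {v : Place K F} {t : F} (ht : 0 < v.ord t) :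
    IsGen K t :=
  IsGen.of_transcendental x₀ (transcendental_of_ord_pos ht)

/-- **the function `t`**: for every place `P0` there is `t` whose only zero is `P0`. -/
theorem exists_t (x₀ : F) [IsGen K x₀] (P0 : Place K F) :
    ∃ (t : F) (n : ℕ), 0 < n ∧ P0.ord t = n ∧ ∀ v : Place K F, v ≠ P0 → v.ord t ≤ 0 := by
  classical
  obtain ⟨c, hc⟩ := exists_jump (K := K) x₀
  set m : ℕ := (max c 0).toNat with hm
  have hmc : c ≤ (m : ℤ) := by
    rw [hm, Int.toNat_of_nonneg (le_max_right _ _)]
    exact le_max_left _ _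
  have hdeg : Divisor.degree (Finsupp.single P0 (m : ℤ) : Divisor K F) = m := by
    rw [Divisor.degree_single, PlaceB.deg_eq_one P0 x₀]
    norm_num
  obtain ⟨s, hs0, hsP, hsv⟩ := hc (Finsupp.single P0 (m : ℤ)) P0 (by rw [hdeg]; exact hmc)
  rw [Finsupp.single_apply, if_pos rfl] at hsP
  refine ⟨s⁻¹, m + 1, Nat.succ_pos _, ?_, fun v hv => ?_⟩
  · rw [P0.ord_inv, hsP]
    push_cast
    ring
  · have := hsv v hv
    rw [Finsupp.single_apply, if_neg (Ne.symm hv)] at this
    rw [v.ord_inv]
    omega

/-- **the degree**: if `P0` is the only zero of `t`, of order `n`, then `[F : K(t)] = n`. -/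
theorem finrank_eq_of_unique_zero {P0 : Place K F} {t : F} {n : ℕ} [IsGen K t]
    (h0 : P0.ord t = n) (hn : 0 < n) (h1 : ∀ v : Place K F, v ≠ P0 → v.ord t ≤ 0) :
    Module.finrank K⟮t⟯ F = n := by
  have h := FF1.sum_placesOver (K := K) t 0
  have hset : placesOver t (0 : K) = {P0} := by
    ext v
    simp only [placesOver, map_zero, sub_zero, Set.mem_setOf_eq, Set.mem_singleton_iff]
    constructor
    · intro hv
      by_contra hne
      have := h1 v hne
      omega
    · rintro rfl
      rw [h0]
      exact_mod_cast hn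
  rw [finsum_set_coe_eq_finsum_mem (placesOver t (0 : K))
    (f := fun v : Place K F => v.ord (t - algebraMap K F 0)), hset, finsum_mem_singleton,
    map_zero, sub_zero, h0] at h
  exact_mod_cast h.symm

/-- a generator has a pole -/
theorem exists_pole (t : F) [IsGen K t] : ∃ Q : Place K F, Q.ord t < 0 := by
  by_contra hne
  push Not at hne
  have h := FF1.sum_placesOverInfty (K := K) t
  have hz : ∑ᶠ v : placesOverInfty K t, (v : Place K F).ord t = 0 := by
    have : IsEmpty (placesOverInfty K t) := ⟨fun v => absurd v.2 (not_lt.mpr (hne v.1))⟩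
    exact finsum_of_isEmpty _
  rw [hz] at h
  have hpos : 0 < Module.finrank K⟮t⟯ F := Module.finrank_pos
  omega

/-- **the function `y`**: a uniformiser at `P0`, integral over `K[t]`. -/
theorem exists_y (x₀ : F) [IsGen K x₀] {P0 : Place K F} {t : F} (ht : 0 < P0.ord t) :
    ∃ y : F, P0.ord y = 1 ∧ IsIntegral (Algebra.adjoin K {t}) y := by
  classical
  have : IsGen K t := isGen_of_ord_pos x₀ ht
  obtain ⟨Q, hQ⟩ := exists_pole (K := K) t
  have hQP : Q ≠ P0 := by
    rintro rfl
    omega
  obtain ⟨c, hc⟩ := exists_jump (K := K) x₀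
  set m : ℕ := (max c 0).toNat with hm
  have hmc : c ≤ (m : ℤ) := by
    rw [hm, Int.toNat_of_nonneg (le_max_right _ _)]
    exact le_max_left _ _
  set D : Divisor K F := Finsupp.single Q ((m : ℤ) + 2) - Finsupp.single P0 2 with hD
  have hdeg : Divisor.degree D = m := by
    rw [hD, map_sub, Divisor.degree_single, Divisor.degree_single, PlaceB.deg_eq_one P0 x₀,
      PlaceB.deg_eq_one Q x₀]
    push_cast
    ring
  obtain ⟨y, hy0, hyP, hyv⟩ := hc D P0 (by rw [hdeg]; exact hmc)
  have hDP : D P0 = -2 := by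
    rw [hD, Finsupp.sub_apply, Finsupp.single_apply, Finsupp.single_apply, if_neg hQP, if_pos rfl]
    ring
  refine ⟨y, by rw [hyP, hDP]; ring, ?_⟩
  rw [Fermat.Agent.GJ.J1.PlaceLattice.isIntegral_adjoin_iff x₀]
  intro v hv
  rcases eq_or_ne v P0 with rfl | hvP
  · rw [hyP, hDP]
    norm_num
  · have hvQ : v ≠ Q := by
      rintro rfl
      omega
    have := hyv v hvP
    rw [hD, Finsupp.sub_apply, Finsupp.single_apply, Finsupp.single_apply, if_neg (Ne.symm hvQ),
      if_neg (Ne.symm hvP)] at this
    simpa using this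

end Functions

end Fermat.Agent.GJ27.Eis
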