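/-
GATE-J27 / S27, node GJ27-EIS = B1 (helper62), part 2: the NEWTON-POLYGON argument.

`v` a place, `ord_v y = 1`, `n ≥ 1`.  If `y` satisfies a monic relation `∑_{i ≤ d} a_i y^i = 0`
(`a_d = 1`) of degree `d ≤ n` whose lower coefficients have `ord_v a_i ∈ n ℤ`, then the relation is
EISENSTEIN: `d = n`, `ord_v a_0 = n`, and `ord_v a_i ≥ n` for `0 < i < n`.
-/
import Fermat.Agent.GJ27.Eis.Basic

set_option autoImplicit false
set_option linter.unusedSectionVars false

noncomputable section

open AlgebraicCurve Polynomial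

namespace Fermat.Agent.GJ27.Eis

open Fermat.Agent.S24

variable {K F : Type*} [Field K] [Field F] [Algebra K F]

/-- **Newton polygon / Eisenstein shape from one place.** -/
theorem eisenstein_shape_of_relation (v : Place K F) {y : F} (hy : v.ord y = 1) {n d : ℕ}
    (hn : 0 < n) (hdn : d ≤ n) (a : ℕ → F) (had : a d = 1)
    (hrel : ∑ i ∈ Finset.range (d + 1), a i * y ^ i = 0)
    (hdiv : ∀ i, i < d → a i ≠ 0 → (n : ℤ) ∣ v.ord (a i)) :
    d = n ∧ a 0 ≠ 0 ∧ v.ord (a 0) = n ∧
      ∀ i, 0 < i → i < n → a i ≠ 0 → (n : ℤ) ≤ v.ord (a i) := by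
  classical
  have hy0 : y ≠ 0 := ne_zero_of_ord_ne_zero v (by rw [hy]; norm_num)
  set T : ℕ → F := fun i => a i * y ^ i with hT
  have hordT : ∀ i, a i ≠ 0 → T i ≠ 0 ∧ v.ord (T i) = v.ord (a i) + i := by
    intro i hai
    refine ⟨mul_ne_zero hai (pow_ne_zero _ hy0), ?_⟩
    rw [hT]
    simp only
    rw [v.ord_mul hai (pow_ne_zero _ hy0), ord_pow, hy, mul_one]
  -- the lower part of the relation
  have hS : ∑ i ∈ Finset.range d, T i = -y ^ d := by
    rw [Finset.sum_range_succ, had, one_mul] at hrel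
    exact eq_neg_of_add_eq_zero_left hrel
  have hSne : ∑ i ∈ Finset.range d, T i ≠ 0 := by
    rw [hS]
    exact neg_ne_zero.mpr (pow_ne_zero _ hy0)
  have hd0 : 0 < d := by
    rcases Nat.eq_zero_or_pos d with h0 | h0
    · exfalso
      rw [h0, Finset.range_zero, Finset.sum_empty] at hSne
      exact hSne rfl
    · exact h0
  -- the dominant term
  obtain ⟨j, hj, hjmax⟩ := Finset.exists_max_image (Finset.range d)
    (fun i => v.adicValuation (T i)) ⟨0, Finset.mem_range.mpr hd0⟩
  have hjd : j < d := Finset.mem_range.mp hj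
  have hTj : T j ≠ 0 := by
    intro h0
    apply hSne
    refine Finset.sum_eq_zero fun i hi => ?_
    have := hjmax i hi
    simp only [h0, map_zero, le_zero_iff] at this
    exact (map_eq_zero _).mp this
  have haj : a j ≠ 0 := fun h => hTj (by rw [hT]; simp [h])
  -- all other terms are strictly smaller
  have hlt : ∀ i ∈ Finset.range d, i ≠ j →
      v.adicValuation (T i) < v.adicValuation (T j) := by
    intro i hi hij
    refine lt_of_le_of_ne (hjmax i hi) fun heq => hij ?_
    have hid : i < d := Finset.mem_range.mp hi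
    have hTi : T i ≠ 0 := by
      intro h0
      rw [h0, map_zero] at heq
      exact v.adicValuation_ne_zero hTj heq.symm
    have hai : a i ≠ 0 := fun h => hTi (by rw [hT]; simp [h])
    have h1 := (ord_eq_iff_adicValuation_eq v hTi hTj).mpr heq
    rw [(hordT i hai).2, (hordT j haj).2] at h1
    obtain ⟨k1, hk1⟩ := hdiv i hid hai
    obtain ⟨k2, hk2⟩ := hdiv j hjd haj
    rw [hk1, hk2] at h1
    -- `n * (k1 - k2) = j - i` with `|j - i| < n`
    have h2 : (n : ℤ) * (k1 - k2) = (j : ℤ) - i := by linarith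
    have hk : k1 - k2 = 0 := by
      by_contra hne
      have habs : (n : ℤ) ≤ |(n : ℤ) * (k1 - k2)| := by
        rw [abs_mul, abs_of_nonneg (Int.natCast_nonneg n)]
        have : (1 : ℤ) ≤ |k1 - k2| := Int.one_le_abs hne
        nlinarith [Int.natCast_nonneg n]
      rw [h2] at habs
      have : |(j : ℤ) - i| < n := by
        rw [abs_lt]
        constructor <;> omega
      omega
    rw [hk, mul_zero] at h2
    omega
  -- hence `ord (∑) = ord (T j)`
  have hsum : v.adicValuation (∑ i ∈ Finset.range d, T i) = v.adicValuation (T j) := by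
    rw [← Finset.add_sum_erase _ _ hj]
    refine Valuation.map_add_eq_of_lt_left _ ?_
    refine Valuation.map_sum_lt _ (v.adicValuation_ne_zero hTj) fun i hi => ?_
    exact hlt i (Finset.mem_of_mem_erase hi) (Finset.ne_of_mem_erase hi)
  have hordS : v.ord (∑ i ∈ Finset.range d, T i) = v.ord (T j) :=
    (ord_eq_iff_adicValuation_eq v hSne hTj).mpr hsum
  rw [hS, PlaceB.ord_neg, ord_pow, hy, mul_one, (hordT j haj).2] at hordS
  obtain ⟨k, hk⟩ := hdiv j hjd haj
  rw [hk] at hordS
  -- `d = n k + j`, `j < d ≤ n`  ⟹  `k = 1`, `j = 0`, `d = n`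
  have hk1 : k = 1 := by
    have h1 : 0 < (n : ℤ) * k := by omega
    have h2 : (n : ℤ) * k ≤ n := by omega
    have hkpos : 0 < k := by
      by_contra hle
      have : k ≤ 0 := not_lt.mp hle
      nlinarith [Int.natCast_nonneg n]
    have hkle : k ≤ 1 := by
      by_contra hgt
      have : 2 ≤ k := by omega
      have hnpos : (0 : ℤ) < n := by exact_mod_cast hn
      nlinarith
    omega
  rw [hk1, mul_one] at hordS hk
  have hj0 : j = 0 := by omega
  have hdn' : d = n := by omega
  subst hj0
  refine ⟨hdn', haj, hk, fun i hi0 hin hai => ?_⟩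
  have hid : i < d := by omega
  have h1 := hlt i (Finset.mem_range.mpr hid) (by omega)
  have hTi := (hordT i hai).1
  have h2 := (ord_lt_iff_adicValuation_lt v hTj hTi).mpr h1
  rw [(hordT i hai).2, (hordT 0 haj).2, hk] at h2
  obtain ⟨k', hk'⟩ := hdiv i hid hai
  rw [hk'] at h2 ⊢
  have hnpos : (0 : ℤ) < n := by exact_mod_cast hn
  have : 0 < k' := by
    by_contra hle
    have : k' ≤ 0 := not_lt.mp hle
    have : (n : ℤ) * k' ≤ 0 := by nlinarith
    omega
  nlinarith

end Fermat.Agent.GJ27.Eis
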