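/-
GATE-J27 / S27, node GJ27-EIS = B1 (helper62), part 3: the EISENSTEIN POLYNOMIAL.

`P0` the only zero of `t`, of order `n`; `ord_{P0} y = 1`; `y` integral over `K[t]`.  Then the
minimal polynomial `P(X, Y) ∈ K[X][Y]` of `y` over `K[t]` is monic of degree `n = [F : K(t)]` in `Y`,
Eisenstein at `(X)`, irreducible (also over `K(X)`), and `F = K(t)(y)`.
-/
import Fermat.Agent.GJ27.Eis.Newton

set_option autoImplicit false
set_option linter.unusedSectionVars false

noncomputable section

open AlgebraicCurve IntermediateField Polynomial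
open scoped IntermediateField.algebraAdjoinAdjoin Polynomial.Bivariate

namespace Fermat.Agent.GJ27.Eis

open Fermat.Agent.S24

variable {K F : Type*} [Field K] [Field F] [Algebra K F]

section Equiv

variable (K) (t : F) [ht : IsGen K t]

/-- `K[X] ≃ K[t]` -/
def polyEquiv : K[X] ≃ₐ[K] Rx K t :=
  Polynomial.algEquivOfTranscendental K t ht.transcendental

theorem coe_polyEquiv (p : K[X]) : ((polyEquiv K t p : Rx K t) : F) = aeval t p := by
  rw [polyEquiv, Polynomial.algEquivOfTranscendental_apply]
  exact (Subalgebra.aeval_coe (Rx K t) ⟨t, Algebra.self_mem_adjoin_singleton K t⟩ p).symm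

theorem aeval_polyEquiv_symm (r : Rx K t) : aeval t ((polyEquiv K t).symm r) = (r : F) := by
  rw [← coe_polyEquiv, AlgEquiv.apply_symm_apply]

end Equiv

section Main

variable [IsAlgClosed K] [CharZero K]

/-- **B1, polynomial part.** -/
theorem exists_eisenstein_poly (x₀ : F) [IsGen K x₀] {P0 : Place K F} {t y : F} {n : ℕ}
    (hn : 0 < n) (ht : P0.ord t = n) (ht' : ∀ v : Place K F, v ≠ P0 → v.ord t ≤ 0)
    (hy : P0.ord y = 1) (hint : IsIntegral (Algebra.adjoin K {t}) y) :
    ∃ P : K[X][Y], P.Monic ∧ P.natDegree = n ∧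
      Polynomial.eval₂ (Polynomial.aeval t : K[X] →ₐ[K] F).toRingHom y P = 0 ∧
      (∀ i, i < n → X ∣ P.coeff i) ∧ ¬ X ^ 2 ∣ P.coeff 0 ∧
      Irreducible P ∧ Irreducible (P.map (algebraMap K[X] (RatFunc K))) ∧
      Module.finrank K⟮t⟯ F = n ∧ (minpoly K⟮t⟯ y).natDegree = n := by
  classical
  have htpos : 0 < P0.ord t := by rw [ht]; exact_mod_cast hn
  haveI : IsGen K t := isGen_of_ord_pos x₀ htpos
  have hfin : Module.finrank K⟮t⟯ F = n := finrank_eq_of_unique_zero ht hn ht'
  have hint' : IsIntegral (Rx K t) y := hint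
  set m : (Rx K t)[X] := minpoly (Rx K t) y with hm
  have hmon : m.Monic := minpoly.monic hint'
  have hfield : minpoly K⟮t⟯ y = m.map (algebraMap (Rx K t) K⟮t⟯) :=
    minpoly.isIntegrallyClosed_eq_field_fractions' K⟮t⟯ hint'
  have hdegm : (minpoly K⟮t⟯ y).natDegree = m.natDegree := by
    rw [hfield, hmon.natDegree_map]
  have hdn : m.natDegree ≤ n := by
    rw [← hdegm, ← hfin]
    exact minpoly.natDegree_le y
  -- the relation
  set a : ℕ → F := fun i => ((m.coeff i : Rx K t) : F) with ha
  have hrel : ∑ i ∈ Finset.range (m.natDegree + 1), a i * y ^ i = 0 := by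
    have h0 : aeval y m = 0 := minpoly.aeval (Rx K t) y
    rw [Polynomial.aeval_eq_sum_range] at h0
    rw [← h0]
    refine Finset.sum_congr rfl fun i _ => ?_
    rw [Algebra.smul_def]
    rfl
  have had : a m.natDegree = 1 := by
    rw [ha]
    simp only
    rw [Polynomial.coeff_natDegree, hmon.leadingCoeff]
    rfl
  -- coefficients as polynomials in `t`
  set p : ℕ → K[X] := fun i => (polyEquiv K t).symm (m.coeff i) with hp
  have hap : ∀ i, a i = aeval t (p i) := fun i => (aeval_polyEquiv_symm K t (m.coeff i)).symm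
  have hp0 : ∀ i, a i ≠ 0 → p i ≠ 0 := by
    intro i hai h0
    apply hai
    rw [hap, h0, map_zero]
  have hord : ∀ i, a i ≠ 0 → P0.ord (a i) = ((p i).rootMultiplicity 0 : ℤ) * n := by
    intro i hai
    rw [hap, (ord_aeval P0 htpos (hp0 i hai)).2, ht]
  obtain ⟨hdeq, ha0, hord0, hordi⟩ := eisenstein_shape_of_relation P0 hy hn hdn a had hrel
    (fun i _ hai => ⟨((p i).rootMultiplicity 0 : ℤ), by rw [hord i hai]; ring⟩)
  -- the polynomial
  set P : K[X][Y] := m.map ((polyEquiv K t).symm : Rx K t →+* K[X]) with hP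
  have hPcoeff : ∀ i, P.coeff i = p i := fun i => by
    rw [hP, Polynomial.coeff_map]
    rfl
  have hPmon : P.Monic := hmon.map _
  have hPdeg : P.natDegree = n := by rw [hP, hmon.natDegree_map, hdeq]
  have hnpos : (0 : ℤ) < n := by exact_mod_cast hn
  refine ⟨P, hPmon, hPdeg, ?_, ?_, ?_, ?_, ?_, hfin, by rw [hdegm, hdeq]⟩
  · -- `P(t, y) = 0`
    rw [hP, Polynomial.eval₂_map]
    have hcomp : ((Polynomial.aeval t : K[X] →ₐ[K] F).toRingHom.comp
        ((polyEquiv K t).symm : Rx K t →+* K[X])) = algebraMap (Rx K t) F := by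
      ext r
      exact aeval_polyEquiv_symm K t r
    rw [hcomp, ← Polynomial.aeval_def]
    exact minpoly.aeval (Rx K t) y
  · -- `X ∣ a_i`
    intro i hi
    rw [hPcoeff]
    rcases eq_or_ne (a i) 0 with hai | hai
    · have : p i = 0 := by
        by_contra hne
        exact (ord_aeval P0 htpos hne).1 (by rw [← hap, hai])
      rw [this]
      exact dvd_zero _
    · have hmult : 1 ≤ (p i).rootMultiplicity 0 := by
        rcases Nat.eq_zero_or_pos i with rfl | hipos
        · have := hord 0 ha0
          rw [hord0] at this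
          have h1 : ((p 0).rootMultiplicity 0 : ℤ) = 1 := by
            have : (n : ℤ) * 1 = n * ((p 0).rootMultiplicity 0 : ℤ) := by linarith
            exact (mul_left_cancel₀ hnpos.ne' this).symm
          omega
        · have h1 := hordi i hipos hi hai
          rw [hord i hai] at h1
          by_contra hlt
          have : (p i).rootMultiplicity 0 = 0 := by omega
          rw [this] at h1
          simp at h1
          omega
      have := (Polynomial.le_rootMultiplicity_iff (hp0 i hai) (a := (0 : K)) (n := 1)).mp hmult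
      simpa using this
  · -- `X² ∤ a_0`
    rw [hPcoeff]
    intro hdvd
    have h2 : 2 ≤ (p 0).rootMultiplicity 0 := by
      refine (Polynomial.le_rootMultiplicity_iff (hp0 0 ha0) (a := (0 : K)) (n := 2)).mpr ?_
      simpa using hdvd
    have := hord 0 ha0
    rw [hord0] at this
    have h1 : ((p 0).rootMultiplicity 0 : ℤ) = 1 := by
      have : (n : ℤ) * 1 = n * ((p 0).rootMultiplicity 0 : ℤ) := by linarith
      exact (mul_left_cancel₀ hnpos.ne' this).symm
    omega
  · -- irreducible over `K[X]`
    have hirr : Irreducible m := minpoly.irreducible hint'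
    have : P = (Polynomial.mapEquiv (polyEquiv K t).symm.toRingEquiv) m := rfl
    rw [this]
    exact (MulEquiv.irreducible_iff
      (Polynomial.mapEquiv (polyEquiv K t).symm.toRingEquiv).toMulEquiv).mpr hirr
  · -- irreducible over `K(X)`
    have hirr : Irreducible m := minpoly.irreducible hint'
    have hPirr : Irreducible P := by
      have : P = (Polynomial.mapEquiv (polyEquiv K t).symm.toRingEquiv) m := rfl
      rw [this]
      exact (MulEquiv.irreducible_iff
        (Polynomial.mapEquiv (polyEquiv K t).symm.toRingEquiv).toMulEquiv).mpr hirr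
    exact (hPmon.irreducible_iff_irreducible_map_fraction_map (K := RatFunc K)).mp hPirr

end Main

end Fermat.Agent.GJ27.Eis
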