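/-
GATE-J27 / S27, node GJ27-EIS = B1 (helper62), part 4: exports.

* `adjoin_eq_top`              : `K(t)(y) = F` from `deg minpoly = [F : K(t)]`;
* `exists_bezout`              : separability certificate `U·P + V·∂_Y P = δ(X) ≠ 0` over `K[X]`;
* `exists_eisenstein_presentation` : the packaged statement (B1 of helper27's DESIGN v1).
-/
import Fermat.Agent.GJ27.Eis.Poly

set_option autoImplicit false
set_option linter.unusedSectionVars false

noncomputable section

open AlgebraicCurve IntermediateField Polynomial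
open scoped Polynomial.Bivariate

namespace Fermat.Agent.GJ27.Eis

open Fermat.Agent.S24

variable {K F : Type*} [Field K] [Field F] [Algebra K F]

/-- `K(t)(y) = F` when the degree of `y` over `K(t)` is `[F : K(t)]`. -/
theorem adjoin_eq_top {t y : F} [FiniteDimensional K⟮t⟯ F]
    (h : (minpoly K⟮t⟯ y).natDegree = Module.finrank K⟮t⟯ F) :
    (K⟮t⟯)⟮y⟯ = ⊤ := by
  have hint : IsIntegral K⟮t⟯ y := IsIntegral.of_finite K⟮t⟯ y
  haveI : FiniteDimensional K⟮t⟯ (⊤ : IntermediateField K⟮t⟯ F) :=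
    (IntermediateField.topEquiv (F := K⟮t⟯) (E := F)).symm.toLinearEquiv.finiteDimensional
  refine IntermediateField.eq_of_le_of_finrank_eq le_top ?_
  rw [IntermediateField.adjoin.finrank hint, h, IntermediateField.finrank_top']

/-- the explicit form of `P(t, y) = 0` -/
theorem eval₂_eq_sum {t y : F} (P : K[X][Y]) :
    Polynomial.eval₂ (Polynomial.aeval t : K[X] →ₐ[K] F).toRingHom y P =
      ∑ i ∈ Finset.range (P.natDegree + 1), aeval t (P.coeff i) * y ^ i := by
  rw [Polynomial.eval₂_eq_sum_range]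
  rfl

section Bezout

variable [CharZero K]

/-- **separability certificate**: if `P ∈ K[X][Y]` is irreducible over `K(X)` then
`U·P + V·∂_Y P = δ` for some `U V ∈ K[X][Y]` and `0 ≠ δ ∈ K[X]`. -/
theorem exists_bezout {P : K[X][Y]}
    (hirr : Irreducible (P.map (algebraMap K[X] (RatFunc K)))) :
    ∃ (U V : K[X][Y]) (δ : K[X]), δ ≠ 0 ∧ U * P + V * derivative P = C δ := by
  classical
  set φ : K[X] →+* RatFunc K := algebraMap K[X] (RatFunc K) with hφ
  have hφinj : Function.Injective φ := IsFractionRing.injective K[X] (RatFunc K)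
  have hsep : (P.map φ).Separable := hirr.separable
  obtain ⟨u, v, huv⟩ := hsep
  rw [Polynomial.derivative_map] at huv
  obtain ⟨b1, hb1, h1⟩ := IsLocalization.integerNormalization_spec (nonZeroDivisors K[X]) u
  obtain ⟨b2, hb2, h2⟩ := IsLocalization.integerNormalization_spec (nonZeroDivisors K[X]) v
  refine ⟨C b2 * IsLocalization.integerNormalization (nonZeroDivisors K[X]) u,
    C b1 * IsLocalization.integerNormalization (nonZeroDivisors K[X]) v, b1 * b2,
    mul_ne_zero (nonZeroDivisors.ne_zero hb1) (nonZeroDivisors.ne_zero hb2), ?_⟩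
  apply Polynomial.map_injective φ hφinj
  simp only [Polynomial.map_add, Polynomial.map_mul, Polynomial.map_C]
  rw [h1, h2]
  have e1 : (b1 • u : (RatFunc K)[X]) = C (φ b1) * u := by
    rw [Algebra.smul_def, Polynomial.algebraMap_apply]
  have e2 : (b2 • v : (RatFunc K)[X]) = C (φ b2) * v := by
    rw [Algebra.smul_def, Polynomial.algebraMap_apply]
  rw [e1, e2, map_mul φ, C_mul]
  calc C (φ b2) * (C (φ b1) * u) * Polynomial.map φ P +
        C (φ b1) * (C (φ b2) * v) * Polynomial.map φ (derivative P)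
      = C (φ b1) * C (φ b2) * (u * Polynomial.map φ P + v * Polynomial.map φ (derivative P)) := by
        ring
    _ = C (φ b1) * C (φ b2) := by rw [huv, mul_one]

end Bezout

section Top

variable [IsAlgClosed K] [CharZero K]

/-- **GJ27-EIS = B1 (helper27 DESIGN v1): the Eisenstein presentation.**
For every place `P0` of `F/K` (`K` algebraically closed of characteristic `0`) there are functions
`t`, `y` and `P ∈ K[X][Y]`, monic of degree `n = [F : K(t)]` in `Y`, Eisenstein at `(X)`,
with `P(t, y) = 0`, `F = K(t)(y)`, `P` irreducible over `K[X]` and over `K(X)`, and a separability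
certificate over `K[X]`. -/
theorem exists_eisenstein_presentation (x₀ : F) [IsGen K x₀] (P0 : Place K F) :
    ∃ (t y : F) (n : ℕ) (P : K[X][Y]),
      0 < n ∧ IsGen K t ∧
      P0.ord t = n ∧ (∀ v : Place K F, v ≠ P0 → v.ord t ≤ 0) ∧
      P0.ord y = 1 ∧ IsIntegral (Algebra.adjoin K {t}) y ∧
      Module.finrank K⟮t⟯ F = n ∧ (K⟮t⟯)⟮y⟯ = ⊤ ∧
      P.Monic ∧ P.natDegree = n ∧
      Polynomial.eval₂ (Polynomial.aeval t : K[X] →ₐ[K] F).toRingHom y P = 0 ∧
      (∀ i, i < n → X ∣ P.coeff i) ∧ ¬ X ^ 2 ∣ P.coeff 0 ∧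
      Irreducible P ∧ Irreducible (P.map (algebraMap K[X] (RatFunc K))) ∧
      ∃ (U V : K[X][Y]) (δ : K[X]), δ ≠ 0 ∧ U * P + V * derivative P = C δ := by
  obtain ⟨t, n, hn, ht, ht'⟩ := exists_t (K := K) x₀ P0
  have htpos : 0 < P0.ord t := by rw [ht]; exact_mod_cast hn
  obtain ⟨y, hy, hint⟩ := exists_y (K := K) x₀ htpos
  obtain ⟨P, hPmon, hPdeg, hPzero, hPdvd, hPsq, hPirr, hPirr', hfin, hmin⟩ :=
    exists_eisenstein_poly (K := K) x₀ hn ht ht' hy hint
  have hgen : IsGen K t := isGen_of_ord_pos x₀ htpos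
  have htop : (K⟮t⟯)⟮y⟯ = ⊤ := adjoin_eq_top (by rw [hmin, hfin])
  exact ⟨t, y, n, P, hn, hgen, ht, ht', hy, hint, hfin, htop, hPmon, hPdeg, hPzero, hPdvd, hPsq,
    hPirr, hPirr', exists_bezout hPirr'⟩

end Top

end Fermat.Agent.GJ27.Eis
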